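/-
Project BAD, layer RN (owner helper287).  WIP skeleton: exact statements of all nodes, with `sorry`.
Never import this file from a landed file.
-/
import Fermat.Agent.BAD.ResNorm.Defs

set_option autoImplicit false

namespace Fermat.Agent.BAD.ResNorm

open Module

/-! ### RN-0  `BAD/ResNorm/OrdAPI.lean` -/
section OrdAPI

variable {F : Type*} [Field F] {W : ValuationSubring F} (o : Ord W)

theorem ord_one : o.ord 1 = 0 := by sorry
theorem ord_inv {x : F} (hx : x ≠ 0) : o.ord x⁻¹ = - o.ord x := by sorry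
theorem ord_div {x y : F} (hx : x ≠ 0) (hy : y ≠ 0) : o.ord (x / y) = o.ord x - o.ord y := by sorry
theorem ord_pow {x : F} (hx : x ≠ 0) (k : ℕ) : o.ord (x ^ k) = k * o.ord x := by sorry
theorem ord_zpow {x : F} (hx : x ≠ 0) (k : ℤ) : o.ord (x ^ k) = k * o.ord x := by sorry
theorem ord_neg (x : F) : o.ord (-x) = o.ord x := by sorry
theorem ord_prod {κ : Type*} (s : Finset κ) (g : κ → F) (hg : ∀ i ∈ s, g i ≠ 0) :
    o.ord (∏ i ∈ s, g i) = ∑ i ∈ s, o.ord (g i) := by sorry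
theorem ge_ord {x : F} : Ge o (o.ord x) x := Or.inr le_rfl
theorem ge_zero (m : ℤ) : Ge o m 0 := Or.inl rfl
theorem ge_zero_iff (x : F) : Ge o 0 x ↔ x ∈ W := by sorry
theorem ge_one_iff (x : F) : Ge o 1 x ↔ x ∈ W.nonunits := by sorry
theorem isU_iff (x : F) : IsU W x ↔ x ≠ 0 ∧ o.ord x = 0 := by sorry
theorem cong_iff (x y : F) : Cong W x y ↔ Ge o 1 (x - y) := by sorry

variable {o}

theorem Ge.mono {m m' : ℤ} {x : F} (h : Ge o m x) (hm : m' ≤ m) : Ge o m' x := by sorry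
theorem Ge.mul {m m' : ℤ} {x y : F} (hx : Ge o m x) (hy : Ge o m' y) :
    Ge o (m + m') (x * y) := by sorry
theorem Ge.add {m : ℤ} {x y : F} (hx : Ge o m x) (hy : Ge o m y) : Ge o m (x + y) := by sorry
theorem Ge.neg {m : ℤ} {x : F} (hx : Ge o m x) : Ge o m (-x) := by sorry
theorem Ge.sub {m : ℤ} {x y : F} (hx : Ge o m x) (hy : Ge o m y) : Ge o m (x - y) := by sorry
theorem Ge.sum {κ : Type*} {m : ℤ} (s : Finset κ) (g : κ → F) (h : ∀ i ∈ s, Ge o m (g i)) :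
    Ge o m (∑ i ∈ s, g i) := by sorry
theorem Ge.prod {κ : Type*} (s : Finset κ) (g : κ → F) (m : κ → ℤ)
    (h : ∀ i ∈ s, Ge o (m i) (g i)) : Ge o (∑ i ∈ s, m i) (∏ i ∈ s, g i) := by sorry
theorem ge_mul_iff {g : F} (hg : g ≠ 0) (m : ℤ) (x : F) :
    Ge o (o.ord g + m) (g * x) ↔ Ge o m x := by sorry

end OrdAPI

/-! ### RN-3  `BAD/ResNorm/Det.lean` (pure matrix lemmas) -/
section Det

variable {F₁ : Type*} [Field F₁] {V : ValuationSubring F₁}
variable {n : Type*} [Fintype n] [DecidableEq n]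

/-- A matrix over `V` which is triangular modulo the maximal ideal (with respect to a level
function), with diagonal `≡ c`. -/
theorem det_sub_prod_mem_nonunits (M : Matrix n n F₁) (lvl : n → ℕ) (c : n → F₁)
    (hM : ∀ a b, M a b ∈ V)
    (hoff : ∀ a b, a ≠ b → lvl a ≤ lvl b → M a b ∈ V.nonunits)
    (hdiag : ∀ a, M a a - c a ∈ V.nonunits) : M.det - ∏ a, c a ∈ V.nonunits := by
  sorry

theorem det_mem (M : Matrix n n F₁) (hM : ∀ a b, M a b ∈ V) : M.det ∈ V := by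
  sorry

/-- If the columns in `S` are divisible by the uniformiser, `ord (det M) ≥ |S|`. -/
theorem ge_det_of_cols (oV : Ord V) (M : Matrix n n F₁) (hM : ∀ a b, M a b ∈ V) (S : Finset n)
    (hS : ∀ b ∈ S, ∀ a, M a b ∈ V.nonunits) : Ge oV (S.card : ℤ) M.det := by
  sorry

end Det

variable {F₁ F₂ : Type*} [Field F₁] [Field F₂] [Algebra F₁ F₂]
variable {V : ValuationSubring F₁} {ι : Type*} [Fintype ι] {W : ι → ValuationSubring F₂}
variable {oV : Ord V} {oW : ∀ i, Ord (W i)} {e f : ι → ℕ}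

/-! ### RN-1  `BAD/ResNorm/Adapted.lean` -/

theorem Data.mem_iff (D : Data oV oW e f) (i : ι) (x : F₁) :
    algebraMap F₁ F₂ x ∈ W i ↔ x ∈ V := by
  sorry

theorem Data.ge_algebraMap (D : Data oV oW e f) (i : ι) {x : F₁} {m : ℤ} (hx : Ge oV m x) :
    Ge (oW i) (e i * m) (algebraMap F₁ F₂ x) := by
  sorry

theorem exists_adapted (D : Data oV oW e f) : ∃ b : Idx e f → F₂, Adapted oV oW e f b := by
  sorry

/-! ### RN-2  `BAD/ResNorm/Basis.lean` -/

theorem Adapted.exists_basis (D : Data oV oW e f) {b : Idx e f → F₂} (hb : Adapted oV oW e f b) :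
    ∃ B : Basis (Idx e f) F₁ F₂, ∀ a, B a = b a := by
  sorry

theorem Adapted.repr_mem (D : Data oV oW e f) {b : Idx e f → F₂} (hb : Adapted oV oW e f b)
    (B : Basis (Idx e f) F₁ F₂) (hB : ∀ a, B a = b a) (y : F₂) (hy : ∀ j, y ∈ W j) :
    ∀ a, B.repr y a ∈ V := by
  sorry

theorem Adapted.repr_mem_nonunits (D : Data oV oW e f) {b : Idx e f → F₂}
    (hb : Adapted oV oW e f b) (B : Basis (Idx e f) F₁ F₂) (hB : ∀ a, B a = b a) (y : F₂)
    (hy : ∀ j, y ∈ W j) (i : ι) (s₀ : ℕ) (hs : s₀ ≤ e i) (h : Ge (oW i) (s₀ : ℤ) y) :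
    ∀ (s : Fin (e i)) (k : Fin (f i)), (s : ℕ) < s₀ → B.repr y ⟨i, s, k⟩ ∈ V.nonunits := by
  sorry

/-! ### RN-4  `BAD/ResNorm/CongNorm.lean` -/

/-- **Residue norm formula**, scalar residues. -/
theorem cong_norm (D : Data oV oW e f) (u : F₂) (x : ι → F₁) (hu : ∀ i, IsU (W i) u)
    (hx : ∀ i, Cong (W i) u (algebraMap F₁ F₂ (x i))) :
    Cong V (Algebra.norm F₁ u) (∏ i, x i ^ (e i * f i)) := by
  sorry

/-! ### RN-5  `BAD/ResNorm/UnitNorm.lean` -/

theorem isU_norm (D : Data oV oW e f) (u : F₂) (hu : ∀ i, IsU (W i) u) :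
    IsU V (Algebra.norm F₁ u) := by
  sorry

theorem ge_norm_of_unif (D : Data oV oW e f) (i : ι) (τ : F₂) (hτ : τ ≠ 0)
    (h1 : (oW i).ord τ = 1) (h0 : ∀ j, j ≠ i → (oW j).ord τ = 0) :
    Ge oV (f i : ℤ) (Algebra.norm F₁ τ) := by
  sorry

/-! ### RN-6  `BAD/ResNorm/OrdNorm.lean` -/

/-- **Valuation of a norm.** -/
theorem ord_norm (D : Data oV oW e f) (u : F₂) (hu : u ≠ 0) :
    oV.ord (Algebra.norm F₁ u) = ∑ i, (f i : ℤ) * (oW i).ord u := by
  sorry

/-! ### RN-7  `BAD/ResNorm/Insep.lean` -/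

/-- Frobenius is injective on the residue field. -/
theorem cong_of_pow_cong (p : ℕ) (hp : p.Prime) (hpV : (p : F₁) ∈ V.nonunits) (r : ℕ) {a b : F₁}
    (ha : a ∈ V) (hb : b ∈ V) (h : Cong V (a ^ p ^ r) (b ^ p ^ r)) : Cong V a b := by
  sorry

/-- **Residue norm formula**, purely inseparable residue extensions of degrees `f i`. -/
theorem cong_norm_insep (D : Data oV oW e f) (p : ℕ) (hp : p.Prime) (hpV : (p : F₁) ∈ V.nonunits)
    (hf : ∀ i, ∃ a : ℕ, f i = p ^ a) (u : F₂) (x : ι → F₁) (hu : ∀ i, IsU (W i) u)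
    (hx : ∀ i, Cong (W i) (u ^ f i) (algebraMap F₁ F₂ (x i))) :
    Cong V (Algebra.norm F₁ u) (∏ i, x i ^ e i) := by
  sorry

end Fermat.Agent.BAD.ResNorm
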